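import Fermat.Agent.S55.T.CoresH572
import Fermat.Agent.S55.E1.Defs

/-!
# S55 / G / REC / TOW — leaf ALG-CM (subtask 552, helper21): core lemma

Class module at `p` from ONE Sylow `p`-subgroup.  If `H¹(H, C) = 0` and `|H²(H, C)| ∣ |H|` for
every `p`-subgroup `H ≤ Γ`, and `res_P γ` has order divisible by `|P|` for one subgroup `P` which
is a `p`-group of index prime to `p`, then `(C, γ)` is a class module at `p`.

Proof (no conjugation needed): for a `p`-subgroup `H` and `n • res_H γ = 0`, `T.resIndex` gives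
`[Γ : H] • n • γ = 0`; restricting to `P`, `|P| ∣ [Γ : H] · n`, hence `|H| ∣ [Γ : P] · n` and
`|H| ∣ n`.  So `res_H γ` has order `≥ |H| ≥ |H²(H, C)|` and generates.

Imports only `T/Spec`, `T/CoresH572` (for `resIndex`) and `E1/Defs`.
-/

set_option autoImplicit false

open CategoryTheory groupCohomology

namespace Fermat.Agent.S55.G.Rec.TOW.H21

open Fermat.Agent.S55

/-- Pure arithmetic: `|P| ∣ [Γ:H] · n`, `|P|·[Γ:P] = |H|·[Γ:H]`, `|H| = p^b`, `p ∤ [Γ:P]`
⟹ `|H| ∣ n`. -/
theorem algCM_arith {p : ℕ} (hp : p.Prime) {cP iP cH iH n b : ℕ} (hcP : 0 < cP)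
    (hcard : cP * iP = cH * iH) (hH : cH = p ^ b) (hiP : ¬ p ∣ iP) (hdvd : cP ∣ iH * n) :
    cH ∣ n := by
  -- `cP * cH ∣ cH * iH * n = cP * iP * n`
  have h1 : cP * cH ∣ cP * (iP * n) := by
    have : cP * cH ∣ cH * (iH * n) := by
      rw [mul_comm cP cH]
      exact Nat.mul_dvd_mul_left cH hdvd
    have e : cH * (iH * n) = cP * (iP * n) := by
      rw [← mul_assoc, ← hcard, mul_assoc]
    rwa [e] at this
  have h2 : cH ∣ iP * n := (Nat.mul_dvd_mul_iff_left hcP).mp h1
  have hcop : Nat.Coprime cH iP := by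
    rw [hH]
    exact Nat.Coprime.pow_left b ((Nat.Prime.coprime_iff_not_dvd hp).mpr hiP)
  exact hcop.dvd_of_dvd_mul_left h2

/-- In a finite additive group `M` with `|M| ∣ m`, an element `x₀` such that `n • x₀ = 0`
implies `m ∣ n` generates `M` (over `ℕ`), and `|M| = m`. -/
theorem algCM_cyclic {M : Type} [AddCommGroup M] [Finite M] {m : ℕ} (hm : Nat.card M ∣ m)
    (x₀ : M) (hx₀ : ∀ n : ℕ, n • x₀ = 0 → m ∣ n) :
    Nat.card M = m ∧ ∀ x : M, ∃ n : ℕ, x = n • x₀ := by
  have hord1 : m ∣ addOrderOf x₀ := hx₀ _ (addOrderOf_nsmul_eq_zero x₀)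
  have hord2 : addOrderOf x₀ ∣ Nat.card M := addOrderOf_dvd_natCard x₀
  have hcard : Nat.card M = m := Nat.dvd_antisymm hm (hord1.trans hord2)
  have hord : addOrderOf x₀ = Nat.card M :=
    Nat.dvd_antisymm hord2 (hcard ▸ hord1)
  refine ⟨hcard, fun x => ?_⟩
  have htop : AddSubgroup.zmultiples x₀ = ⊤ := by
    apply AddSubgroup.eq_top_of_card_eq
    rw [Nat.card_zmultiples, hord]
  have hx : x ∈ AddSubgroup.zmultiples x₀ := htop ▸ AddSubgroup.mem_top x
  have hfin : IsOfFinAddOrder x₀ := isOfFinAddOrder_of_finite x₀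
  have hx' : x ∈ AddSubmonoid.multiples x₀ :=
    (hfin.mem_multiples_iff_mem_zmultiples).mpr hx
  obtain ⟨n, hn⟩ := hx'
  exact ⟨n, hn.symm⟩

/-- **ALG-CM**, core form. -/
theorem classModuleAt_of_sylow (p : ℕ) (hp : p.Prime) (Γ : Type) [Group Γ] [Finite Γ]
    (C : Rep.{0} ℤ Γ) (γ : groupCohomology C 2) (P : Subgroup Γ) (_hP : IsPGroup p P)
    (hidx : ¬ p ∣ P.index)
    (hup : ∀ H : Subgroup Γ, IsPGroup p H →
      Limits.IsZero (groupCohomology (T.resSub C H) 1) ∧
      T.CardDvd (groupCohomology (T.resSub C H) 2) (Nat.card H))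
    (hord : ∀ n : ℕ, n • (T.resMap C P 2).hom γ = 0 → Nat.card P ∣ n) :
    E1.IsClassModuleAt p C γ := by
  intro H hH
  obtain ⟨h1, hfin, hdvd⟩ := hup H hH
  refine ⟨h1, ?_⟩
  have : Finite (groupCohomology (T.resSub C H) 2) := hfin
  -- the key divisibility
  have key : ∀ n : ℕ, n • (T.resMap C H 2).hom γ = 0 → Nat.card H ∣ n := by
    intro n hn
    have h2 : (T.resMap C H 2).hom (n • γ) = 0 := by
      rw [map_nsmul]; exact hn
    have h3 : H.index • (n • γ) = 0 :=
      T.H572.resIndex ℤ Γ C H 2 (by norm_num) (n • γ) h2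
    have h4 : (H.index * n) • (T.resMap C P 2).hom γ = 0 := by
      have := congrArg (fun y => (T.resMap C P 2).hom y) h3
      simp only [map_nsmul, map_zero] at this
      rw [mul_smul]; exact this
    have h5 : Nat.card P ∣ H.index * n := hord _ h4
    have : Fact p.Prime := ⟨hp⟩
    obtain ⟨b, hb⟩ := IsPGroup.iff_card.mp hH
    exact algCM_arith hp Nat.card_pos
      ((Subgroup.card_mul_index P).trans (Subgroup.card_mul_index H).symm) hb hidx h5
  exact algCM_cyclic hdvd _ key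

end Fermat.Agent.S55.G.Rec.TOW.H21
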