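import Fermat.Agent.S55.G.Rec.Tow.Spec
import Fermat.Agent.S55.G.Rec.Tow.H21.AlgCMCore

/-!
# S55 / G / REC / TOW — leaf ALG-CM (subtask 552, helper21)

`classModuleOfSylow : ClassModuleOfSylowSpec` (exact frozen Prop of `G/Rec/Tow/Spec.lean`).
Unconditional: uses `T.H572.resIndex` from main.  The mathematics is in `AlgCMCore.lean`
(which does not import the Tower vocabulary).
-/

set_option autoImplicit false

open CategoryTheory groupCohomology

namespace Fermat.Agent.S55.G.Rec.TOW.H21

open Fermat.Agent.S55

/-- **ALG-CM**: class module at `p` from one Sylow subgroup. -/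
theorem classModuleOfSylow : ClassModuleOfSylowSpec := by
  intro p hp Γ _ _ C γ P hP hidx hup hord
  exact classModuleAt_of_sylow p hp Γ C γ P hP hidx hup hord

end Fermat.Agent.S55.G.Rec.TOW.H21
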